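import Fermat.Agent.RT.Frey.Inputs
import Fermat.Agent.S05
import Fermat.Agent.S08

/-!
# Lowering the level of the Frey representation to two

`exists_form_two`: if the irreducible mod `p` representation of a Frey package is modular of some
conductor level, then, given `LowerOddInput` and `LowerAtPInput`, there is a nonzero cusp form of
weight two on `Γ₀(2)`.

* `exists_level_dvd_two`: the odd primes of the level are removed one at a time, by induction on
  the level. The representation is unramified at those other than `p` by S05, so `LowerOddInput`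
  applies to them; `LowerAtPInput` removes `p`.
* `exists_form_two`: level one is excluded by S08, so the level reached is `2`.

It is used in `RT/Frey/ModularSquarefree`.
-/

set_option autoImplicit false

open WeierstrassCurve.Affine.Point

namespace Fermat.Agent.RT.Frey

/-- An irreducible Frey representation modular of a conductor level is modular of a level dividing
two. -/
theorem exists_level_dvd_two (h43 : LowerOddInput) (h44 : LowerAtPInput) (P : FreyPackage)
    (hirr : GaloisRepIsIrreducible (K := AlgebraicClosure ℚ) ℚ P.freyCurve P.p) :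
    ∀ N : ℕ, P.IsConductorLevel N → P.ModularRepOfLevel N →
      ∃ M : ℕ, M ∣ 2 ∧ P.ModularRepOfLevel M := by
  intro N
  induction N using Nat.strong_induction_on with
  | _ N ih =>
    intro hcond hmod
    by_cases h2 : N ∣ 2
    · exact ⟨N, h2, hmod⟩
    -- the squarefree level has an odd prime `q`
    obtain ⟨q, hq, hqN, hq2⟩ : ∃ q, q.Prime ∧ q ∣ N ∧ q ≠ 2 := by
      by_contra hall
      push Not at hall
      refine h2 ?_
      rw [← Nat.prod_primeFactors_of_squarefree hcond.squarefree]
      exact Finset.prod_primes_dvd 2 (fun q hq => (Nat.prime_of_mem_primeFactors hq).prime)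
        fun q hq => dvd_of_eq
          (hall q (Nat.prime_of_mem_primeFactors hq) (Nat.dvd_of_mem_primeFactors hq))
    -- a smaller conductor level is enough, by induction
    have key : ∀ M, M ∣ N → ¬ q ∣ M → P.ModularRepOfLevel M →
        ∃ L : ℕ, L ∣ 2 ∧ P.ModularRepOfLevel L := fun M hMN hqM hM => by
      have hlt : M < N := lt_of_le_of_ne (Nat.le_of_dvd hcond.pos hMN) fun h => hqM (h ▸ hqN)
      exact ih M hlt (hcond.of_dvd hMN (Nat.pos_of_ne_zero fun h => hqM (h ▸ dvd_zero q))) hM
    by_cases hqp : q = P.p
    · subst hqp
      obtain ⟨M, hMN, hpM, hM⟩ := h44 P hcond hqN hirr hmod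
      exact key M hMN hpM hM
    · obtain ⟨M, hMN, hqM, hM⟩ :=
        h43 P hcond hq hq2 hqp hqN hirr hmod (S05.result P hq hq2 hqp)
      exact key M hMN hqM hM

/-- **A nonzero form of weight two on `Γ₀(2)`**, from one conductor level at which the irreducible
Frey representation is modular. -/
theorem exists_form_two (h43 : LowerOddInput) (h44 : LowerAtPInput) (P : FreyPackage)
    (hirr : GaloisRepIsIrreducible (K := AlgebraicClosure ℚ) ℚ P.freyCurve P.p)
    (h06 : ∃ N : ℕ, P.IsConductorLevel N ∧ P.ModularRepOfLevel N) :
    ∃ f : CuspForm (CongruenceSubgroup.Gamma0 2) 2, f ≠ 0 := by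
  obtain ⟨N, hcond, hmod⟩ := h06
  obtain ⟨M, hM2, f, -, -, hf, -⟩ := exists_level_dvd_two h43 h44 P hirr N hcond hmod
  rcases (Nat.dvd_prime Nat.prime_two).1 hM2 with rfl | rfl
  · exact absurd (S08.result f) hf.ne_zero
  · exact ⟨f, hf.ne_zero⟩

end Fermat.Agent.RT.Frey
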