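import Fermat.Agent.RT.Frey.Lowering

/-!
# The integral Frey curve is a semistable integral model

For every Frey package the integral Frey curve is a semistable model
(`freyCurveInt_isSemistableModel`) and an integral model of the Frey curve over `ℚ`
(`freyCurveInt_isIntegralModel`). Both are used in `RT/Frey/ModularSquarefree` to apply the results
on semistable models to it.
-/

set_option autoImplicit false

namespace Fermat.Agent.RT.Frey

/-- The integral Frey curve is a semistable model. -/
theorem freyCurveInt_isSemistableModel (P : FreyPackage) : P.freyCurveInt.IsSemistableModel :=
  fun _ hq hΔ => EC.Reduction.Frey.not_dvd_c₄ P hq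
    (by_contra fun h => EC.Reduction.Frey.not_dvd_Δ P hq h hΔ)

/-- The integral Frey curve is an integral model of the Frey curve. -/
theorem freyCurveInt_isIntegralModel (P : FreyPackage) :
    P.freyCurveInt.IsIntegralModelOf P.freyCurve :=
  ⟨1, by rw [one_smul, EC.Reduction.Frey.freyCurve_eq_map]⟩

end Fermat.Agent.RT.Frey
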