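import Fermat.Agent.Switch.Main

/-!
# The 3-5 switch at `2` and at `5`

`three_five_switch_even`: every semistable model has a semistable partner with irreducible mod `3`
representation and congruent traces modulo `5`, whose discriminant is even if that of the model is
and is divisible by `5` only if that of the model is. It is used in `RT/Frey/ModularSquarefree` and
`AllSemistable/Main`.
-/

set_option autoImplicit false

open WeierstrassCurve

namespace Fermat.Agent.Switch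

variable {W : WeierstrassCurve ℤ} (F : FamilyData W)

/-- A prime dividing `30` divides the discriminant of a member iff that of the given curve. -/
theorem FamilyData.dvd_Δ_curve_iff {p : ℕ} (hp : (p : ℤ) ∣ 30) (n : ℤ) :
    (p : ℤ) ∣ (F.curve n).Δ ↔ (p : ℤ) ∣ W.Δ := by
  have h30 : (p : ℤ) ∣ 30 * W.Δ := dvd_mul_of_dvd_left hp _
  have e4 : ((F.d4 n : ℤ) : ZMod p) = 0 :=
    (ZMod.intCast_zmod_eq_zero_iff_dvd _ _).mpr (h30.trans (F.d4_dvd n))
  have e6 : ((F.d6 n : ℤ) : ZMod p) = 0 :=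
    (ZMod.intCast_zmod_eq_zero_iff_dvd _ _).mpr (h30.trans (F.d6_dvd n))
  have hmap : (F.curve n).map (Int.castRingHom (ZMod p)) = W.map (Int.castRingHom (ZMod p)) := by
    ext <;> simp [FamilyData.curve, e4, e6]
  have hd := congrArg WeierstrassCurve.Δ hmap
  simp only [map_Δ, Int.coe_castRingHom] at hd
  rw [← ZMod.intCast_zmod_eq_zero_iff_dvd, ← ZMod.intCast_zmod_eq_zero_iff_dvd, hd]

/-- The 3-5 switch, keeping an even discriminant. -/
theorem three_five_switch_even (W : WeierstrassCurve ℤ) (hΔ : W.Δ ≠ 0) (hW : W.IsSemistableModel) :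
    ∃ W' : WeierstrassCurve ℤ, W'.Δ ≠ 0 ∧ W'.IsSemistableModel ∧ W'.ModRepIsIrreducible 3 ∧
      ((2 : ℤ) ∣ W.Δ → (2 : ℤ) ∣ W'.Δ) ∧ ((5 : ℤ) ∣ W'.Δ → (5 : ℤ) ∣ W.Δ) ∧
      ∀ ℓ : ℕ, ℓ.Prime → W.IsGoodPrimeFor ℓ → W'.IsGoodPrimeFor ℓ → ℓ ≠ 5 →
        (5 : ℤ) ∣ (W'.apOfModel ℓ - W.apOfModel ℓ) := by
  obtain ⟨F⟩ := exists_familyData hΔ hW
  obtain ⟨n, hn, hirr⟩ := F.exists_irreducible hW (c₄_ne_zero_of_semistable hW)
  exact ⟨F.curve n, hn, F.isSemistableModel hW n, hirr, fun h2 =>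
    (F.dvd_Δ_curve_iff (p := 2) (by norm_num) n).mpr h2,
    fun h5 => (F.dvd_Δ_curve_iff (p := 5) (by norm_num) n).mp h5,
    fun ℓ => F.five_dvd_apOfModel_sub hn⟩

end Fermat.Agent.Switch
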