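import Fermat.Agent.RT.Frey.InputsSquarefree
import Fermat.Agent.RT.Frey.SwitchEven
import Fermat.Agent.RT.Frey.Lowering
import Fermat.Agent.RT.Frey.Modular
import Fermat.Agent.RT.Mazur.Residually
import Fermat.Agent.GaloisReps.Models
import Fermat.Agent.S51

/-!
# Modularity of the Frey curve and its consequences, from the inputs

The theorems here assume the inputs of `RT/Frey/InputsSquarefree`, and `LowerAtPInput` for the last
one.

* `isModular_of_even_disc`: a semistable model with even discriminant is modular of exactly its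
  conductor level. By S51 its mod `3` or its mod `5` representation is irreducible. In the first
  case residual modularity at `3` and lifting at `3` suffice; in the second, the 3-5 switch of
  `RT/Frey/SwitchEven` gives a partner to which the first case applies, with traces congruent
  modulo `5`, and lifting at `5` finishes.
* For the Frey curve this gives modularity (`freyCurve_isModular`, S04) and a conductor level
  (`exists_conductorLevel`, S06).
* `lowerOdd_of_lower`: level lowering gives the removal of an odd prime from the level of the Frey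
  representation (S43).
* `exists_cuspForm_two_ne_zero`: together these give a nonzero form of level two (S45), which
  `RT/Frey/TopSquarefree` contradicts.

This route runs through curves of even discriminant and squarefree levels, of which the Frey
curve is a case.
-/

set_option autoImplicit false

open WeierstrassCurve.Affine.Point

namespace Fermat.Agent.RT.Frey

/-! ## Semistable curves with even discriminant -/

/-- A modular curve with traces congruent to those of `W` makes `W` residually modular of its
conductor level. -/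
theorem exists_residuallyModular_of_congruent {p : ℕ} (hp : p.Prime) {W W' : WeierstrassCurve ℤ}
    (hW' : Mlc1IsModularModelOfExactConductorLevel W')
    (hcong : ∀ ℓ : ℕ, ℓ.Prime → W.IsGoodPrimeFor ℓ → W'.IsGoodPrimeFor ℓ → ℓ ≠ p →
      (p : ℤ) ∣ W'.apOfModel ℓ - W.apOfModel ℓ) :
    ∃ N : ℕ, 0 < N ∧ Squarefree N ∧ (∀ q : ℕ, q.Prime → q ∣ N → (q : ℤ) ∣ W'.Δ) ∧
      W.IsResiduallyModularOfLevel p N := by
  obtain ⟨N, hN, hsq, hsupp, f, hf, hfW⟩ := hW'
  obtain ⟨𝔪, h𝔪, hpm⟩ := FLTPrelim.exists_maximalIdeal_natCast_prime_mem hp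
  refine ⟨N, hN, hsq, fun q hq => (hsupp q hq).1, f, 𝔪, hf, h𝔪, hpm,
    fun ℓ hℓ hgood hℓN hℓp => ?_⟩
  have hgood' : W'.IsGoodPrimeFor ℓ := fun h => hℓN ((hsupp ℓ hℓ).2 h)
  obtain ⟨k, hk⟩ := hcong ℓ hℓ hgood hgood' hℓp
  refine ⟨(W'.apOfModel ℓ : integralClosure ℤ ℂ), ?_, ?_⟩
  · rw [hfW ℓ hℓ hgood' hℓN]
    norm_cast
  · rw [← Int.cast_sub, hk]
    push_cast
    exact Ideal.mul_mem_right _ _ hpm

/-- A semistable model with even discriminant, irreducible at `3`, is modular of exactly its
conductor level. -/
theorem isModular_of_even_disc_of_irreducible_three (hres3 : ResidualThreeEvenInput)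
    (hlift : LiftingSquarefreeInput) (W : WeierstrassCurve ℤ) (hΔ : W.Δ ≠ 0)
    (hW : W.IsSemistableModel) (h2 : (2 : ℤ) ∣ W.Δ)
    (h3 : W.ModRepIsIrreducible 3) : Mlc1IsModularModelOfExactConductorLevel W := by
  obtain ⟨M, -, hsq, hres, h3M⟩ := hres3 W hΔ hW h2
  exact hlift 3 (Or.inl rfl) W hΔ hW h3 M hsq h3M hres

/-- **Modularity of semistable curves with even discriminant**: they are modular of exactly their
conductor level. -/
theorem isModular_of_even_disc (hres3 : ResidualThreeEvenInput) (hlift : LiftingSquarefreeInput)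
    (W : WeierstrassCurve ℤ) (hΔ : W.Δ ≠ 0) (hW : W.IsSemistableModel) (h2 : (2 : ℤ) ∣ W.Δ) :
    Mlc1IsModularModelOfExactConductorLevel W := by
  rcases S51.result W hΔ hW with h3 | h5
  · exact isModular_of_even_disc_of_irreducible_three hres3 hlift W hΔ hW h2 h3
  · -- the partner `W'` is irreducible at `3`, hence modular
    obtain ⟨W', hΔ', hW', h3', h2', h5', hcong⟩ := Switch.three_five_switch_even W hΔ hW
    have hmod := isModular_of_even_disc_of_irreducible_three hres3 hlift W' hΔ' hW' (h2' h2) h3'
    -- its form makes `W` residually modular at `5`, so `W` lifts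
    obtain ⟨N, -, hsq, hsupp, hres⟩ :=
      exists_residuallyModular_of_congruent (p := 5) (by norm_num) hmod hcong
    exact hlift 5 (Or.inr rfl) W hΔ hW h5 N hsq (fun h => h5' (hsupp 5 (by norm_num) h)) hres

/-! ## The Frey curve -/

/-- The integral Frey curve is modular of exactly its conductor level. -/
theorem freyCurveInt_isModular (hres3 : ResidualThreeEvenInput) (hlift : LiftingSquarefreeInput)
    (P : FreyPackage) : Mlc1IsModularModelOfExactConductorLevel P.freyCurveInt :=
  isModular_of_even_disc hres3 hlift P.freyCurveInt (EC.Reduction.Frey.Δ_ne_zero P)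
    (freyCurveInt_isSemistableModel P) (EC.Reduction.Frey.two_dvd_Δ P)

/-- S04 from the squarefree inputs: the Frey curve is modular. -/
theorem freyCurve_isModular (hres3 : ResidualThreeEvenInput) (hlift : LiftingSquarefreeInput)
    (P : FreyPackage) : P.freyCurve.IsModular := by
  obtain ⟨N, hN, -, -, hmod⟩ := freyCurveInt_isModular hres3 hlift P
  exact ⟨P.freyCurveInt, freyCurveInt_isIntegralModel P, N, hN, hmod⟩

/-- S06 from the squarefree inputs: the Frey representation is modular of a conductor level. -/
theorem exists_conductorLevel (hres3 : ResidualThreeEvenInput) (hlift : LiftingSquarefreeInput)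
    (P : FreyPackage) : ∃ N : ℕ, P.IsConductorLevel N ∧ P.ModularRepOfLevel N := by
  obtain ⟨N, hN, hsq, hsupp, f, 𝔪, hf, h𝔪, hpm, hcong⟩ :=
    exists_residuallyModular_of_congruent P.pp (W := P.freyCurveInt)
      (freyCurveInt_isModular hres3 hlift P) fun ℓ _ _ _ _ => by rw [sub_self]; exact dvd_zero _
  exact ⟨N, ⟨hN, hsq, fun q hq hqN => by_contra fun h =>
    EC.Reduction.Frey.not_dvd_Δ P hq h (hsupp q hq hqN)⟩, f, P.freyCurveInt, 𝔪, hf,
    freyCurveInt_isIntegralModel P, h𝔪, hpm, hcong⟩

/-! ## Lowering the level of the Frey representation -/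

/-- If `p ∣ a b c`, then `p` divides the discriminant of the integral Frey curve. -/
theorem p_dvd_freyCurveInt_Δ (P : FreyPackage) (h : (P.p : ℤ) ∣ P.a * P.b * P.c) :
    (P.p : ℤ) ∣ P.freyCurveInt.Δ := by
  have hp : Prime (P.p : ℤ) := Nat.prime_iff_prime_int.mp P.pp
  have h1 : (P.p : ℤ) ∣ 2 ^ 8 * P.freyCurveInt.Δ := by
    rw [EC.Reduction.Frey.Δ_eq]
    exact dvd_pow h (mul_ne_zero two_ne_zero P.pp.ne_zero)
  refine (hp.dvd_or_dvd h1).resolve_left fun h2 => ?_
  have h3 : P.p ∣ 2 := by exact_mod_cast hp.dvd_of_dvd_pow h2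
  have := Nat.le_of_dvd two_pos h3
  have := P.hp5
  omega

/-- S43 from level lowering at squarefree levels: an odd unramified `q ≠ p` is removed from the
level of the Frey representation. -/
theorem lowerOdd_of_lower (hlow : LowerInput) : LowerOddInput := by
  intro P N q hcond hq _ hqp hqN hirr hmod hunr
  have : Fact P.p.Prime := ⟨P.pp⟩
  have : NeZero N := ⟨hcond.pos.ne'⟩
  have hsq := hcond.squarefree
  have hdvd : N / q ∣ N := Nat.div_dvd_of_dvd hqN
  have : NeZero (N / q) := ⟨fun h => hcond.pos.ne' (by rw [← Nat.div_mul_cancel hqN, h, zero_mul])⟩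
  refine ⟨N / q, hdvd, fun h => hq.not_isUnit (hsq q ?_), ?_⟩
  · obtain ⟨k, hk⟩ := h
    exact ⟨k, by rw [← Nat.div_mul_cancel hqN, hk]; ring⟩
  · rw [Mazur.modularRepOfLevel_iff P GaloisReps.models] at hmod ⊢
    rw [EC.Reduction.Frey.freyCurve_eq_map] at hirr
    rw [FreyPackage.GaloisRepUnramifiedAt, EC.Reduction.Frey.freyCurve_eq_map] at hunr
    exact hlow P.freyCurveInt P.p (EC.Reduction.Frey.Δ_ne_zero P)
      (freyCurveInt_isSemistableModel P) (by have := P.hp5; omega) hirr N q hsq
      (fun hpN => p_dvd_freyCurveInt_Δ P (hcond.p_dvd_abc hpN)) hq hqN hqp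
      (fun A hA σ hσ => LinearMap.ext fun x => hunr A hA σ hσ x) hmod

/-- S45 from the squarefree inputs: an irreducible Frey representation gives a nonzero cusp form of
weight two on `Γ₀(2)`. -/
theorem exists_cuspForm_two_ne_zero (hlow : LowerInput) (h44 : LowerAtPInput)
    (hres3 : ResidualThreeEvenInput) (hlift : LiftingSquarefreeInput) (P : FreyPackage)
    (hirr : GaloisRepIsIrreducible (K := AlgebraicClosure ℚ) ℚ P.freyCurve P.p) :
    ∃ f : CuspForm (CongruenceSubgroup.Gamma0 2) 2, f ≠ 0 :=
  exists_form_two (lowerOdd_of_lower hlow) h44 P hirr (exists_conductorLevel hres3 hlift P)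

end Fermat.Agent.RT.Frey
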