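import Fermat.Agent.RT.Frey.Lowered
import Fermat.Agent.RT.AtP.Good
import Fermat.Agent.RT.Lifting.Main

/-!
# Modularity lifting from a squarefree level

`liftingSquarefreeInput` proves the second input of `RT/Frey/TopSquarefree`: for `p = 3, 5`, a
semistable integral model with irreducible mod `p` representation, residually modular of a
squarefree level which contains `p` only if `p` divides the discriminant, is modular of exactly its
conductor level. This is `isModular_of_residuallyModular` of `RT/Lifting/Main`, where the argument
is described, over the coefficient ring of `RT/Assembly/Coeff`, with its three hypotheses (level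
lowering, strictness at `p` of newforms, ordinarity at `p` of old levels) supplied by
`RT/Frey/Lowered`, `RT/AtP/Strict` and `RT/AtP/Good`. It is used for S01 and its waypoints S03, S04,
S06, S45, and by `AllSemistable/Modular`.
-/

set_option autoImplicit false

open IsLocalRing WeierstrassCurve

namespace Fermat.Agent.RT.Frey

/-- **Modularity lifting** at `3` and `5` from a squarefree level. -/
theorem liftingSquarefreeInput : LiftingSquarefreeInput := by
  intro p hp W hΔ hW hirr M hM hbad hmod
  have : Fact p.Prime := ⟨by rcases hp with rfl | rfl <;> norm_num⟩
  have hp2 : p ≠ 2 := by omega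
  -- the coefficient ring: a complete discrete valuation ring inside `ℂ_[p]` whose finite
  -- residue field contains a root of every quadratic over `ZMod p`
  obtain ⟨O, _, _, _, _, _, _, _, hpO, -, hk, φ, hφinj, hφ⟩ := Assembly.exists_coeff p
  let : Algebra (ZMod p) (ResidueField O) := ZMod.algebra _ p
  -- the same property of the residue field, stated for the algebra map
  have hk' : ∀ f : Polynomial (ZMod p), f.natDegree = 2 →
      ∃ x : ResidueField O, (f.map (algebraMap (ZMod p) (ResidueField O))).IsRoot x :=
        fun f hf => by
    rw [Subsingleton.elim (algebraMap (ZMod p) (ResidueField O)) (ZMod.castHom dvd_rfl _)]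
    exact hk f hf
  exact Lifting.isModular_of_residuallyModular hΔ hW hp2 hirr hpO hk' φ hφinj hφ
    (lowerInput W p hΔ hW hp2 hirr) (AtP.strictAtNew p O hp2) (AtP.ordinaryAtOld W p hΔ O)
    hM hbad hmod

end Fermat.Agent.RT.Frey
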