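import Fermat.Agent.RT.Frey.InputsSquarefree
import Fermat.Agent.LT.Points.Final

/-!
# Residual modularity at `3` of curves with even discriminant

`residualThreeEvenInput` proves the first input of `RT/Frey/TopSquarefree`: a semistable model with
even discriminant is residually modular at `3` of a squarefree level, divisible by `3` only if the
discriminant is. This takes the place of the theorem of Langlands and Tunnell; the argument is
described in `LT/Compose/Main`, whose `residualThree_of_pointsInput` is applied here to the
`pointsInput` of `LT/Points/Final`. It is used for S01 and its waypoints S03, S04, S06, S45, and by
`AllSemistable/Modular`.
-/

set_option autoImplicit false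

namespace Fermat.Agent.RT.Frey

/-- **Residual modularity at `3`**, at a squarefree level, of semistable curves of even
discriminant. -/
theorem residualThreeEvenInput : ResidualThreeEvenInput := fun W hΔ hW h2 =>
  LT.Compose.residualThree_of_pointsInput (fun h => LT.Points.pointsInput h) W hΔ hW h2

end Fermat.Agent.RT.Frey
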