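import Fermat.Prelude.Def_FLTPrelim_FreyPackage
import Fermat.Prelude.Def_FLTPrelim_GaloisRep
import Fermat.Prelude.Def_FLTPrelim_ModularRep
import Fermat.Prelude.Def_FLTPrelim_Ramification
import Fermat.Prelude.Def_FreyPackage_IsConductorLevel
import Fermat.Prelude.Def_WeierstrassCurve_Mlc1RowStatement

/-!
# Level lowering for the Frey curve: the two propositions

For a Frey package whose mod `p` representation is irreducible and modular of a conductor level
`N`, `LowerOddInput` removes an odd prime `q ≠ p` of `N` at which the representation is unramified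
(the statement S43) and `LowerAtPInput` removes `p` itself (S44). They are proved by
`lowerOdd_of_lower` in `RT/Frey/ModularSquarefree` and by `RT/LowerP/FlatInput`, and are combined in
`RT/Frey/Lowering`.
-/

set_option autoImplicit false

open WeierstrassCurve.Affine.Point

namespace Fermat.Agent.RT.Frey

/-- The proposition of S43: lowering the level of a Frey representation at an odd `q ≠ p` at
which it is unramified. -/
def LowerOddInput : Prop := ∀ (P : FreyPackage) {N q : ℕ}, P.IsConductorLevel N →
  q.Prime → q ≠ 2 → q ≠ P.p → q ∣ N →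
  GaloisRepIsIrreducible (K := AlgebraicClosure ℚ) ℚ P.freyCurve P.p →
  P.ModularRepOfLevel N → P.GaloisRepUnramifiedAt q →
  ∃ M : ℕ, M ∣ N ∧ ¬ q ∣ M ∧ P.ModularRepOfLevel M

/-- The proposition of S44: lowering the level of a Frey representation at `p`. -/
def LowerAtPInput : Prop := ∀ (P : FreyPackage) {N : ℕ}, P.IsConductorLevel N →
  P.p ∣ N → GaloisRepIsIrreducible (K := AlgebraicClosure ℚ) ℚ P.freyCurve P.p →
  P.ModularRepOfLevel N →
  ∃ M : ℕ, M ∣ N ∧ ¬ P.p ∣ M ∧ P.ModularRepOfLevel M

end Fermat.Agent.RT.Frey
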