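import Fermat.Agent.RT.Frey.Inputs
import Fermat.Agent.RT.Lifting.Inputs

/-!
# The inputs of the endgame along squarefree levels

For a semistable integral model `W`: `ResidualThreeEvenInput` is residual modularity at `3` of a
squarefree level when the discriminant is even, `LiftingSquarefreeInput` is modularity lifting at
`p = 3, 5` from a squarefree level when the mod `p` representation is irreducible, `LowerInput` is
level lowering away from an odd `p`. They are proved in `RT/Frey/Residual`, `RT/Frey/Lifting` and
`RT/Frey/Lowered` and consumed by `RT/Frey/ModularSquarefree`. The files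
`RT/Frey/*Squarefree` work along squarefree levels with these inputs; `Inputs`, `Modular` and `Top`
hold what is independent of them.
-/

set_option autoImplicit false

namespace Fermat.Agent.RT.Frey

/-- Residual modularity at `3` of a semistable curve with even discriminant, at a squarefree
level which `3` divides only if it divides the discriminant. -/
def ResidualThreeEvenInput : Prop := ∀ (W : WeierstrassCurve ℤ), W.Δ ≠ 0 → W.IsSemistableModel →
  (2 : ℤ) ∣ W.Δ →
    ∃ M : ℕ, 0 < M ∧ Squarefree M ∧ W.IsResiduallyModularOfLevel 3 M ∧ (3 ∣ M → (3 : ℤ) ∣ W.Δ)

/-- Modularity lifting at `p = 3, 5`: a semistable curve with irreducible mod `p` representation,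
residually modular of a squarefree level with `p` in it only if `W` is bad at `p`, is modular of
exactly its conductor level. -/
def LiftingSquarefreeInput : Prop := ∀ (p : ℕ), p = 3 ∨ p = 5 → ∀ (W : WeierstrassCurve ℤ),
  W.Δ ≠ 0 → W.IsSemistableModel → W.ModRepIsIrreducible p → ∀ M : ℕ, Squarefree M →
    (p ∣ M → (p : ℤ) ∣ W.Δ) → W.IsResiduallyModularOfLevel p M →
      Mlc1IsModularModelOfExactConductorLevel W

/-- Level lowering: for an odd `p` and irreducible `W[p]`, a prime `q ≠ p` at which `W[p]` is
unramified can be removed from a squarefree level of residual modularity (`Lifting.Lower`). -/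
def LowerInput : Prop := ∀ (W : WeierstrassCurve ℤ) (p : ℕ) [Fact p.Prime] (hΔ : W.Δ ≠ 0),
  W.IsSemistableModel → p ≠ 2 → W.ModRepIsIrreducible p → Lifting.Lower W p hΔ

end Fermat.Agent.RT.Frey
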