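import Fermat.Agent.RT.Frey.Lowered
import Fermat.Agent.AllSemistable.Modular

/-!
# Level lowering away from `p` at every squarefree level

`lower_of_unramified`: for an odd `p` and a semistable model with irreducible mod `p`
representation, an unramified `q ≠ p` can be removed from any squarefree level `M` of residual
modularity.

If `p` is in the level only when the curve is bad at `p`, this is `lowerInput` of `RT/Frey/Lowered`.
In the remaining case one does not start from `M`. The curve is modular of its conductor level,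
prime to `p` (`AllSemistable/Modular`); its primes outside `M / q`, at which the representation is
unramified (`isUnramifiedAt_of_residuallyModular`), are removed one at a time by `lowerInput`, and
the missing primes of `M / q` are then added (`residuallyModular_of_dvd`). It proves S38.
-/

set_option autoImplicit false

noncomputable section

open WeierstrassCurve Polynomial
open Fermat.Agent.Arith (GQ QBar)

namespace Fermat.Agent.RT.Frey

variable {W : WeierstrassCurve ℤ} {p : ℕ} [Fact p.Prime] (hΔ : W.Δ ≠ 0)

/-! ## Residual modularity and ramification -/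

include hΔ in
/-- The residual representation is unramified outside a level of residual modularity and `p`. -/
theorem isUnramifiedAt_of_residuallyModular (hp2 : p ≠ 2) (hirr : W.ModRepIsIrreducible p)
    {M ℓ : ℕ} (hM : M ≠ 0) (hℓ : ℓ.Prime) (hℓp : ℓ ≠ p) (hℓM : ¬ ℓ ∣ M)
    (hmod : W.IsResiduallyModularOfLevel p M) :
    (EC.Rep.residualRep W p hΔ).IsUnramifiedAt ℓ := by
  classical
  intro A hA σ hσ
  let K := AlgebraicClosure (ZMod p)
  obtain ⟨g, hg, φ, hφ⟩ := Core.isCongruentLevel_of_residuallyModular (k := ZMod p)
    (S := insert p (M.primeFactors ∪ W.Δ.natAbs.primeFactors)) (fun l hl hc => by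
      simp only [Finset.mem_insert, Finset.mem_union, Nat.mem_primeFactors]
      rcases hc with h | h | h
      · exact Or.inl h
      · exact Or.inr (Or.inl ⟨hl, h, hM⟩)
      · exact Or.inr (Or.inr ⟨hl, Int.natCast_dvd.mp h, Int.natAbs_ne_zero.mpr hΔ⟩)) hmod
  -- the representation of the form, unramified at `ℓ`, has the characteristic polynomials of `R`
  obtain ⟨ρ, hatt, hunr⟩ :=
    GaloisReps.exists_residual_eigenform GaloisReps.models hg (Fact.out : p.Prime) φ
  set R := EC.Rep.residualRep W p hΔ
  have hcp : ∀ τ : GQ, LinearMap.charpoly (ρ.ρ τ) =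
      (LinearMap.charpoly (R.ρ τ)).map (algebraMap (ZMod p) K) := fun τ => by
    rw [Core.charpoly_eq_of_attached (p := p) (k := ZMod p) hΔ hM hatt _ hφ]
    show (LinearMap.charpoly ((R.ρ τ).baseChange (ZMod p))).map _ = _
    rw [LinearMap.charpoly_baseChange, Algebra.algebraMap_self, Polynomial.map_id]
  -- so `σ` does not change the traces of `R`, whose image spans the matrix algebra
  let b : Module.Basis (Fin 2) (ZMod p) R.V := Module.finBasisOfFinrankEq _ _ R.finrank_eq
  let r : GQ → Matrix (Fin 2) (Fin 2) (ZMod p) := fun τ => LinearMap.toMatrixAlgEquiv b (R.ρ τ)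
  have hspan : Submodule.span (ZMod p) (Set.range r) = ⊤ :=
    Deform.span_matrix_eq_top R (EC.Rep.isAbsolutelyIrreducible_residualRep hΔ hp2 hirr) b
  have hσ1 : ρ.ρ σ = 1 := hunr ℓ hℓ (fun h => (hℓ.dvd_mul.mp h).elim hℓM
    fun h' => hℓp ((Nat.prime_dvd_prime_iff_eq hℓ Fact.out).mp h')) A hA σ hσ
  have htr : ∀ τ, (r (σ * τ)).trace = (r τ).trace := fun τ => by
    have h1 := hcp (σ * τ)
    rw [map_mul, hσ1, one_mul, hcp τ] at h1
    have h2 := Polynomial.map_injective _ (algebraMap (ZMod p) K).injective h1
    have e : ∀ υ, (r υ).charpoly = LinearMap.charpoly (R.ρ υ) := fun υ =>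
      LinearMap.charpoly_toMatrix (R.ρ υ) b
    rw [Matrix.trace_eq_neg_charpoly_coeff, Matrix.trace_eq_neg_charpoly_coeff, e, e, h2]
  have h0 : r σ - 1 = 0 := LowerB.eq_zero_of_trace_mul hspan fun τ => by
    have := htr τ
    simp only [r, map_mul] at this ⊢
    rw [sub_mul, one_mul, Matrix.trace_sub, this, sub_self]
  exact (LinearMap.toMatrixAlgEquiv b).injective ((sub_eq_zero.mp h0).trans (map_one _).symm)

/-! ## Raising a squarefree level -/

include hΔ in
/-- Residual modularity passes to squarefree multiples. -/
theorem residuallyModular_of_dvd {N : ℕ} (hN : W.IsResiduallyModularOfLevel p N) :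
    ∀ L : ℕ, Squarefree L → N ∣ L → W.IsResiduallyModularOfLevel p L := by
  rintro L hL ⟨c, rfl⟩
  -- add the primes of `L / N` one at a time
  induction c using induction_on_primes with
  | zero => exact absurd (mul_zero N) hL.ne_zero
  | one => rwa [mul_one]
  | prime_mul x c hx ih =>
    rw [show N * (x * c) = N * c * x by ring] at hL ⊢
    exact LowerB.residuallyModular_raise hΔ (ZMod p) (left_ne_zero_of_mul hL.ne_zero) hx
      (fun hd => hx.not_isUnit (hL x (mul_dvd_mul_right hd x)))
      (ih (hL.squarefree_of_dvd (dvd_mul_right _ x)))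

/-! ## Lowering at every squarefree level -/

include hΔ in
/-- **Level lowering away from `p`**: for semistable `W` with irreducible `p`-torsion, `p` odd, an
unramified `q ≠ p` can be removed from a squarefree level, whether or not `W` is bad at `p`. -/
theorem lower_of_unramified (hW : W.IsSemistableModel) (hp2 : p ≠ 2)
    (hirr : W.ModRepIsIrreducible p) {M q : ℕ} (hM : Squarefree M) (hq : q.Prime) (hqp : q ≠ p)
    (hqM : q ∣ M) (hunr : (EC.Rep.residualRep W p hΔ).IsUnramifiedAt q)
    (hmod : W.IsResiduallyModularOfLevel p M) :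
    W.IsResiduallyModularOfLevel p (M / q) := by
  by_cases hbad : p ∣ M → (p : ℤ) ∣ W.Δ
  · exact lowerInput W p hΔ hW hp2 hirr M q hM hbad hq hqM hqp hunr hmod
  -- now `p` is in `M` and `W` is good at `p`
  push Not at hbad
  obtain ⟨hpM, hgood⟩ := hbad
  have hp : p.Prime := Fact.out
  have hd : M / q ∣ M := Nat.div_dvd_of_dvd hqM
  have hsqd : Squarefree (M / q) := hM.squarefree_of_dvd hd
  -- start from the conductor level `N`, prime to `p`
  obtain ⟨N, -, hsq, hsupp, hmodN⟩ := exists_residuallyModular_of_congruent hp (W := W)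
    (AllSemistable.isModular_of_semistable W hΔ hW)
    fun _ _ _ _ _ => by rw [sub_self]; exact dvd_zero _
  have hpN : ¬ p ∣ N := fun h => hgood (hsupp p hp h)
  suffices key : ∀ n : ℕ, Squarefree n → ¬ p ∣ n → W.IsResiduallyModularOfLevel p n →
      W.IsResiduallyModularOfLevel p (M / q) from key N hsq hpN hmodN
  intro n
  induction n using Nat.strong_induction_on with
  | _ n ih =>
    intro hn hpn hmodn
    by_cases h : n ∣ M / q
    · exact residuallyModular_of_dvd hΔ hmodn _ hsqd h
    -- remove a prime `x` of `n` outside `M / q`: `R` is unramified there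
    obtain ⟨x, hxn, hxd⟩ : ∃ x ∈ n.primeFactors, ¬ x ∣ M / q := by
      by_contra hall
      push Not at hall
      exact h (Nat.prod_primeFactors_of_squarefree hn ▸ Finset.prod_primes_dvd _
        (fun x hx => (Nat.prime_of_mem_primeFactors hx).prime) hall)
    obtain ⟨hx, hxn, -⟩ := Nat.mem_primeFactors.1 hxn
    have hxp : x ≠ p := fun h' => hpn (h' ▸ hxn)
    have hu : (EC.Rep.residualRep W p hΔ).IsUnramifiedAt x := by
      rcases eq_or_ne x q with rfl | hxq
      · exact hunr
      refine isUnramifiedAt_of_residuallyModular hΔ hp2 hirr hM.ne_zero hx hxp (fun hxM => ?_) hmod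
      rw [← Nat.mul_div_cancel' hqM] at hxM
      exact (hx.dvd_mul.1 hxM).elim
        (fun h' => hxq ((Nat.prime_dvd_prime_iff_eq hx hq).1 h')) hxd
    have hdn : n / x ∣ n := Nat.div_dvd_of_dvd hxn
    exact ih (n / x) (Nat.div_lt_self (Nat.pos_of_ne_zero hn.ne_zero) hx.one_lt)
      (hn.squarefree_of_dvd hdn) (fun h' => hpn (h'.trans hdn))
      (lowerInput W p hΔ hW hp2 hirr n x hn (fun h' => absurd h' hpn) hx hxn hxp hu hmodn)

end Fermat.Agent.RT.Frey

end
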