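import Fermat.Agent.RT.LowerB.Main
import Fermat.Agent.RT.Frey.ModularSquarefree
import Fermat.Agent.RT.AtP.Strict

/-!
# Level lowering at squarefree levels

`lowerInput` proves the third input of `RT/Frey/TopSquarefree`: for an odd prime `p` and a
semistable integral model with irreducible mod `p` representation, a prime `q ≠ p` at which that
representation is unramified can be removed from a squarefree level of residual modularity, provided
`p` is in the level only if it divides the discriminant. It is used for S01, S03, S43, S45, for
modularity lifting in `RT/Frey/Lifting` and, without the proviso, in `RT/Frey/LowerAny`. It is
`LowerB.lower` of `RT/LowerB/Main`, where the argument is described, with the strictness at `p` of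
`RT/AtP/Strict`.
-/

set_option autoImplicit false

namespace Fermat.Agent.RT.Frey

/-- **Level lowering** away from an odd `p` at squarefree levels, for semistable curves with
irreducible `p`-torsion. -/
theorem lowerInput : LowerInput := fun _ p _ hΔ hW hp2 hirr =>
  LowerB.lower hΔ hp2 hW hirr fun O => AtP.strictAtNew p O hp2

end Fermat.Agent.RT.Frey
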