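import Mathlib.Tactic
import Fermat.Prelude.Def_FLTPrelim_FreyPackage

/-!
# Normalising a counterexample into a Frey package

`freyPackage_of_solution` (S02), for a prime `p ≥ 5` and a solution in nonzero integers:

1. Divide by the gcd of `a` and `b`, which divides `c` (`freyPackage_of_solution`).
2. Permute, with signs, so that `b` is even (`freyPackage_of_coprime`).
3. Change all signs if `a ≡ 1` modulo `4`, so that `a ≡ 3` (`freyPackage_of_coprime_of_even`).
-/

set_option autoImplicit false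

namespace Fermat.Agent.RT.Frey

/-- A coprime solution with `b` even gives a Frey package (after a possible global sign change). -/
theorem freyPackage_of_coprime_of_even {a b c : ℤ} (ha : a ≠ 0) (hb : b ≠ 0) (hc : c ≠ 0)
    {p : ℕ} (pp : p.Prime) (hp5 : 5 ≤ p) (H : a ^ p + b ^ p = c ^ p) (hgcd : Int.gcd a b = 1)
    (hb2 : (2 : ℤ) ∣ b) : Nonempty FreyPackage := by
  have ha2 : ¬ (2 : ℤ) ∣ a := fun h => by
    have h2 := Int.dvd_coe_gcd h hb2
    rw [hgcd] at h2
    norm_num at h2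
  have hodd : Odd p := pp.odd_of_ne_two (by omega)
  have hb2' : (b : ZMod 2) = 0 := (ZMod.intCast_zmod_eq_zero_iff_dvd b 2).2 (by simpa using hb2)
  have h4 : a % 4 = 1 ∨ a % 4 = 3 := by omega
  rcases h4 with h1 | h3
  · refine ⟨⟨-a, -b, -c, neg_ne_zero.2 ha, neg_ne_zero.2 hb, neg_ne_zero.2 hc, p, pp, hp5, ?_, ?_,
      ?_, ?_⟩⟩
    · rw [hodd.neg_pow, hodd.neg_pow, hodd.neg_pow]
      linarith
    · change ((Int.gcd (-a) (-b) : ℕ) : ℤ) = 1
      rw [Int.gcd_neg, Int.neg_gcd, hgcd]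
      rfl
    · have : ((-a : ℤ) : ZMod 4) = ((3 : ℤ) : ZMod 4) := by
        rw [ZMod.intCast_eq_intCast_iff']
        omega
      simpa using this
    · push_cast
      rw [hb2', neg_zero]
  · refine ⟨⟨a, b, c, ha, hb, hc, p, pp, hp5, H, ?_, ?_, hb2'⟩⟩
    · change ((Int.gcd a b : ℕ) : ℤ) = 1
      rw [hgcd]
      rfl
    · have : ((a : ℤ) : ZMod 4) = ((3 : ℤ) : ZMod 4) := by
        rw [ZMod.intCast_eq_intCast_iff']
        omega
      simpa using this

/-- A coprime solution gives a Frey package. -/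
theorem freyPackage_of_coprime {a b c : ℤ} (ha : a ≠ 0) (hb : b ≠ 0) (hc : c ≠ 0)
    {p : ℕ} (pp : p.Prime) (hp5 : 5 ≤ p) (H : a ^ p + b ^ p = c ^ p) (hgcd : Int.gcd a b = 1) :
    Nonempty FreyPackage := by
  have hodd : Odd p := pp.odd_of_ne_two (by omega)
  by_cases hb2 : (2 : ℤ) ∣ b
  · exact freyPackage_of_coprime_of_even ha hb hc pp hp5 H hgcd hb2
  by_cases ha2 : (2 : ℤ) ∣ a
  · exact freyPackage_of_coprime_of_even hb ha hc pp hp5 (by linarith)
      (by rwa [Int.gcd_comm]) ha2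
  have hc2 : (2 : ℤ) ∣ c := by
    apply Int.prime_two.dvd_of_dvd_pow (n := p)
    rw [← H]
    have hA : Odd (a ^ p) := (Int.not_even_iff_odd.1 (fun h => ha2 (even_iff_two_dvd.1 h))).pow
    have hB : Odd (b ^ p) := (Int.not_even_iff_odd.1 (fun h => hb2 (even_iff_two_dvd.1 h))).pow
    exact even_iff_two_dvd.1 (hA.add_odd hB)
  refine freyPackage_of_coprime_of_even ha (neg_ne_zero.2 hc) (neg_ne_zero.2 hb) pp hp5
    (by rw [hodd.neg_pow, hodd.neg_pow]; linarith) ?_ (dvd_neg.2 hc2)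
  have h := FreyPackage.gcdab_eq_gcdac (a := a) (b := b) (c := c) pp.pos H
  have h' : ((Int.gcd a b : ℕ) : ℤ) = ((Int.gcd a c : ℕ) : ℤ) := h
  rw [Int.gcd_neg, ← hgcd]
  exact_mod_cast h'.symm

/-- Any solution in nonzero integers gives a Frey package. -/
theorem freyPackage_of_solution {a b c : ℤ} (ha : a ≠ 0) (hb : b ≠ 0) (hc : c ≠ 0)
    {p : ℕ} (pp : p.Prime) (hp5 : 5 ≤ p) (H : a ^ p + b ^ p = c ^ p) : Nonempty FreyPackage := by
  obtain ⟨g, a', b', hg, hco, rfl, rfl⟩ :=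
    Int.exists_gcd_one' (m := a) (n := b) (Int.gcd_pos_of_ne_zero_left b ha)
  have hg0 : ((g : ℤ)) ≠ 0 := by exact_mod_cast hg.ne'
  have hdvd : (g : ℤ) ∣ c := by
    rw [← Int.pow_dvd_pow_iff pp.ne_zero, ← H, mul_pow, mul_pow]
    exact dvd_add (dvd_mul_left _ _) (dvd_mul_left _ _)
  obtain ⟨c', rfl⟩ := hdvd
  refine freyPackage_of_coprime (c := c') (left_ne_zero_of_mul ha) (left_ne_zero_of_mul hb)
    (right_ne_zero_of_mul hc) pp hp5 ?_ hco
  apply mul_right_cancel₀ (pow_ne_zero p hg0)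
  rw [add_mul, ← mul_pow, ← mul_pow, H, mul_comm, mul_pow]

end Fermat.Agent.RT.Frey
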