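import Fermat.Agent.S02
import Mathlib.NumberTheory.FLT.Three

/-!
# Fermat's Last Theorem from the absence of Frey packages

`fermat_of_noFreyPackage`: if there is no Frey package, then `a ^ n + b ^ n ≠ c ^ n` for `n ≥ 3`
and positive `a`, `b`, `c`. Exponents reduce to odd primes (Mathlib, which includes exponent `4`);
exponent `3` is Mathlib's `fermatLastTheoremThree`; a solution for a prime `p ≥ 5` gives a Frey
package by S02. It is used in `RT/Frey/TopSquarefree`, where the absence of Frey packages is proved
from the inputs.
-/

set_option autoImplicit false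

namespace Fermat.Agent.RT.Frey

/-- **Fermat's Last Theorem from the absence of Frey packages**: the statement of S01. -/
theorem fermat_of_noFreyPackage (h03 : FreyPackage → False) (n : ℕ) (hn : 3 ≤ n) (a b c : ℕ)
    (ha : 0 < a) (hb : 0 < b) (hc : 0 < c) : a ^ n + b ^ n ≠ c ^ n := by
  refine FermatLastTheorem.of_odd_primes (fun q hq hodd => ?_) n hn a b c ha.ne' hb.ne' hc.ne'
  rcases lt_or_ge q 5 with hlt | hge
  · -- an odd prime below `5` is `3`
    obtain rfl : q = 3 := by
      obtain ⟨k, rfl⟩ := hodd
      have := hq.two_le
      omega
    exact fermatLastTheoremThree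
  · -- a solution in integers for a prime `q ≥ 5` gives a Frey package
    rw [fermatLastTheoremFor_iff_int]
    intro x y z hx hy hz h
    obtain ⟨P⟩ := S02.result x y z hx hy hz q hq hge h
    exact h03 P

end Fermat.Agent.RT.Frey
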