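import Fermat.Agent.RT.Frey.ModularSquarefree
import Fermat.Agent.RT.Frey.Top
import Fermat.Agent.S07
import Fermat.Agent.S09

/-!
# The endgame along squarefree levels

Given four inputs there is no Frey package (`false_of_freyPackage`, used for S03): its
representation is irreducible by S09, hence gives a nonzero cusp form of weight two on `Γ₀(2)`
(`RT/Frey/ModularSquarefree`), and there is none by S07. `fermat_of_inputs` deduces Fermat's Last
Theorem by the reductions of `RT/Frey/Top`; S01 applies it to the proofs of the inputs:

* `ResidualThreeEvenInput`, residual modularity at `3` for even discriminant: `RT/Frey/Residual`;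
* `LiftingSquarefreeInput`, modularity lifting at `3` and `5`: `RT/Frey/Lifting`;
* `LowerInput`, level lowering away from `p`: `RT/Frey/Lowered`;
* `LowerAtPInput`, level lowering at `p`: `RT/LowerP/FlatInput`.

## References

* G. Frey, *Links between stable elliptic curves and certain Diophantine equations* (1986).
* J.-P. Serre, *Sur les représentations modulaires de degré 2 de Gal(Q̄/Q)*, Duke Math. J. (1987).
* K. Ribet, *On modular representations of Gal(Q̄/Q) arising from modular forms*, Invent. Math.
  (1990).
* A. Wiles, *Modular elliptic curves and Fermat's Last Theorem*, Ann. of Math. (1995).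
* H. Darmon, F. Diamond, R. Taylor, *Fermat's Last Theorem* (1995).

The skeleton is that of these sources. The theorem of Langlands and Tunnell is not used (see
`LT/Compose/Main`), and modularity lifting is run at squarefree levels only.
-/

set_option autoImplicit false

namespace Fermat.Agent.RT.Frey

/-- S03 from the squarefree inputs: there is no Frey package. -/
theorem false_of_freyPackage (hlow : LowerInput) (h44 : LowerAtPInput)
    (hres3 : ResidualThreeEvenInput) (hlift : LiftingSquarefreeInput) (P : FreyPackage) :
    False := by
  obtain ⟨f, hf⟩ := exists_cuspForm_two_ne_zero hlow h44 hres3 hlift P (S09.result P)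
  exact hf (S07.result f)

/-- S01 from the squarefree inputs: Fermat's Last Theorem. -/
theorem fermat_of_inputs (hlow : LowerInput) (h44 : LowerAtPInput)
    (hres3 : ResidualThreeEvenInput) (hlift : LiftingSquarefreeInput) (n : ℕ) (hn : 3 ≤ n)
    (a b c : ℕ) (ha : 0 < a) (hb : 0 < b) (hc : 0 < c) : a ^ n + b ^ n ≠ c ^ n :=
  fermat_of_noFreyPackage (false_of_freyPackage hlow h44 hres3 hlift) n hn a b c ha hb hc

end Fermat.Agent.RT.Frey
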